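import Fermat.Agent.S28.AI

/-!
# S19 / B : almost integral Hahn series over a completely integrally closed subring have integral coefficients
(port of `S28/AI.lean` from DVRs to rank one valuation rings)
-/

set_option autoImplicit false
noncomputable section

namespace Fermat.Agent.S19.B

open Fermat.Agent.S28

/-- `S` is completely integrally closed in the field `E`. -/
def CIC {E : Type*} [Field E] (S : Subring E) : Prop :=
  ∀ c a : E, c ≠ 0 → (∀ n : ℕ, c * a ^ n ∈ S) → a ∈ S

variable {Γ : Type*} [AddCommGroup Γ] [LinearOrder Γ] [IsOrderedAddMonoid Γ]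
variable {E : Type*} [Field E] (S : Subring E)

/-- auxiliary: the leading-coefficient argument. -/
theorem cic_leadingCoeff_mem (hS : CIC S) (y c : HahnSeries Γ E) (hc : c ≠ 0)
    (h : ∀ m : ℕ, c * y ^ m ∈ coeffSubring S) : y.leadingCoeff ∈ S := by
  have hc0 : c.leadingCoeff ≠ 0 := by
    rw [Ne, HahnSeries.leadingCoeff_eq_zero]
    exact hc
  refine hS _ _ hc0 fun n => ?_
  have hlead : (c * y ^ n).leadingCoeff = c.leadingCoeff * y.leadingCoeff ^ n := by
    rw [HahnSeries.leadingCoeff_mul]
    congr 1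
    induction n with
    | zero => simp
    | succ k ih => rw [pow_succ, HahnSeries.leadingCoeff_mul, ih, pow_succ]
  rw [← hlead, HahnSeries.leadingCoeff_eq]
  exact (mem_coeffSubring_iff S _).1 (h n) _

/-- PROOF: suppose not; let `γ₀` be the least exponent with `y.coeff γ₀ ∉ S`
(supports are well ordered). Replace `y` by `y - truncLT γ₀ y` (the truncation is in
`coeffSubring S`, and `c (y - t)^m = ∑ binom * (-t)^(m-i) * (c y^i)` stays in `coeffSubring S`).
Now `y` has leading coefficient `u ∉ S`; the leading coefficient of `c y^m` is `c₀ u^m ∈ S`.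
Since `u⁻¹ ∈ ϖ S`, `c₀ ∈ ϖ^m S` for all `m`, so `c₀ = 0`, contradiction. -/
theorem cic_mem_of_almost_integral (hS : CIC S) (y c : HahnSeries Γ E) (hc : c ≠ 0)
    (h : ∀ m : ℕ, c * y ^ m ∈ coeffSubring S) : y ∈ coeffSubring S := by
  classical
  by_contra hy
  rw [mem_coeffSubring_iff] at hy
  push Not at hy
  -- the set of bad exponents
  set B : Set Γ := {γ | y.coeff γ ∉ S} with hB
  have hBsub : B ⊆ y.support := by
    intro γ hγ
    rw [HahnSeries.mem_support]
    intro h0
    exact hγ (h0 ▸ S.zero_mem)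
  have hBwf : B.IsWF := y.isWF_support.mono hBsub
  have hBne : B.Nonempty := hy
  set γ₀ := hBwf.min hBne with hγ₀
  have hγ₀mem : y.coeff γ₀ ∉ S := hBwf.min_mem hBne
  have hγ₀min : ∀ γ, γ < γ₀ → y.coeff γ ∈ S := by
    intro γ hγ
    by_contra hbad
    exact hBwf.not_lt_min hBne hbad hγ
  set t := HahnSeries.truncLT γ₀ y with ht
  have htmem : t ∈ coeffSubring S := by
    rw [mem_coeffSubring_iff]
    intro γ
    rw [ht, HahnSeries.coeff_truncLT]
    split_ifs with hlt
    · exact hγ₀min γ hlt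
    · exact S.zero_mem
  set y' := y - t with hy'
  have hy'coeff : ∀ γ, y'.coeff γ = if γ < γ₀ then 0 else y.coeff γ := by
    intro γ
    rw [hy', HahnSeries.coeff_sub, ht, HahnSeries.coeff_truncLT]
    split_ifs <;> simp
  have hy'γ₀ : y'.coeff γ₀ = y.coeff γ₀ := by
    rw [hy'coeff, if_neg (lt_irrefl _)]
  have hy'γ₀ne : y'.coeff γ₀ ≠ 0 := by
    rw [hy'γ₀]
    intro h0
    exact hγ₀mem (h0 ▸ S.zero_mem)
  have hy'ne : y' ≠ 0 := HahnSeries.ne_zero_of_coeff_ne_zero hy'γ₀ne
  have hord : y'.order = γ₀ := by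
    apply le_antisymm (HahnSeries.order_le_of_coeff_ne_zero hy'γ₀ne)
    by_contra hlt
    push Not at hlt
    have h0 : y'.coeff y'.order = 0 := by rw [hy'coeff, if_pos hlt]
    exact hy'ne (HahnSeries.coeff_order_eq_zero.1 h0)
  have hlead : y'.leadingCoeff = y.coeff γ₀ := by
    rw [HahnSeries.leadingCoeff_eq, hord, hy'γ₀]
  have h' : ∀ m : ℕ, c * y' ^ m ∈ coeffSubring S := by
    intro m
    have hexp : c * y' ^ m =
        ∑ i ∈ Finset.range (m + 1), (c * y ^ i) * ((-t) ^ (m - i) * (m.choose i : HahnSeries Γ E)) := by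
      rw [hy', sub_eq_add_neg, add_pow, Finset.mul_sum]
      refine Finset.sum_congr rfl fun i _ => ?_
      ring
    rw [hexp]
    refine Subring.sum_mem _ fun i _ => ?_
    exact Subring.mul_mem _ (h i)
      (Subring.mul_mem _ (Subring.pow_mem _ (Subring.neg_mem _ htmem) _) (natCast_mem _ _))
  exact hγ₀mem (hlead ▸ cic_leadingCoeff_mem S hS y' c hc h')

/-- `coeffSubring S` is integrally closed in its field of fractions (inside `HahnSeries Γ E`). -/
theorem cic_mem_of_isIntegral (hS : CIC S) (y b : HahnSeries Γ E)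
    (hy : IsIntegral (coeffSubring (Γ := Γ) S) y) (hb0 : b ≠ 0) (hb : b ∈ coeffSubring S)
    (hby : b * y ∈ coeffSubring S) : y ∈ coeffSubring S := by
  obtain ⟨p, hp, hpy⟩ := hy
  set n := p.natDegree with hn
  -- key: `b ^ n * aeval y r ∈ R` whenever `natDegree r ≤ n`
  have key : ∀ r : Polynomial (coeffSubring (Γ := Γ) S), r.natDegree ≤ n →
      b ^ n * Polynomial.eval₂ (algebraMap (coeffSubring (Γ := Γ) S) (HahnSeries Γ E)) y r
        ∈ coeffSubring S := by
    intro r hr
    rw [Polynomial.eval₂_eq_sum_range, Finset.mul_sum]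
    refine Subring.sum_mem _ fun i hi => ?_
    have hi' : i ≤ n := by
      have := Finset.mem_range.1 hi
      omega
    have hrew : b ^ n * (algebraMap (coeffSubring (Γ := Γ) S) (HahnSeries Γ E) (r.coeff i) * y ^ i)
        = (r.coeff i : HahnSeries Γ E) * (b ^ (n - i) * (b * y) ^ i) := by
      have hbn : b ^ n = b ^ (n - i) * b ^ i := by rw [← pow_add, Nat.sub_add_cancel hi']
      rw [hbn, mul_pow]
      show _ * _ * ((r.coeff i : HahnSeries Γ E) * y ^ i) = _
      ring
    rw [hrew]
    exact Subring.mul_mem _ (r.coeff i).2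
      (Subring.mul_mem _ (Subring.pow_mem _ hb _) (Subring.pow_mem _ hby _))
  apply cic_mem_of_almost_integral S hS y (b ^ n) (pow_ne_zero _ hb0)
  intro m
  have hmod : Polynomial.eval₂ (algebraMap (coeffSubring (Γ := Γ) S) (HahnSeries Γ E)) y
      ((Polynomial.X ^ m : Polynomial (coeffSubring (Γ := Γ) S)) %ₘ p) = y ^ m := by
    have h1 := Polynomial.modByMonic_add_div (Polynomial.X ^ m : Polynomial (coeffSubring (Γ := Γ) S)) p
    have h2 := congrArg (Polynomial.eval₂ (algebraMap (coeffSubring (Γ := Γ) S) (HahnSeries Γ E)) y) h1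
    rw [Polynomial.eval₂_add, Polynomial.eval₂_mul, hpy, zero_mul, add_zero, Polynomial.eval₂_pow,
      Polynomial.eval₂_X] at h2
    exact h2
  rw [← hmod]
  apply key
  by_cases hp1 : p = 1
  · rw [hp1, Polynomial.modByMonic_one]; simp
  · exact (Polynomial.natDegree_modByMonic_lt _ hp hp1).le

end Fermat.Agent.S19.B
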