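import Fermat.Agent.S19.B.Defs
import Fermat.Agent.GAL.KLC.XSeries

/-!
# S19 / B1 : the `q`-expansion of `s = 1/m(x)` has integer coefficients

`XZ M = q^{-mX}(1 + …)` (`KLC.XZ_eq`, `KLC.XSeries_Monic`, file `GAL/KLC/XSeries.lean`).  For `m ∈ ℤ[X]` monic of degree `D`:
`aeval (XZ M) m = q^{-D mX} * ofPowerSeries (∑_i m_i X^{(D-i) mX} u^i)`, constant coefficient `m_D u(0)^D = 1`.
A series `y` with `XSeries_Monic e y` is a unit of `ℤ((q))` (inverse `single (-e) 1 * ofPowerSeries (u.invOfUnit 1)`, as in the proof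
of `XSeries_Monic.inv`).  Apply `coeffMap (Int.castRingHom Qb)` (a ring hom) to `y * y' = 1`, and
`((aeval (xF M) (m.map _) : FL Qb M) : LaurentSeries Qb) = coeffMap (Int.castRingHom Qb) (aeval (XZ M) m)`
(induction on `m`; `(xF M : LaurentSeries Qb) = xR Qb M = coeffMap _ (XZ M)` by `rfl`).
TIP: avoid `simp`/`ring` on the concrete type `FL Qb M` (typeclass timeouts): move to `LaurentSeries Qb` at once with the ring hom
`(FL Qb M).val` / `Subtype.val`, or state auxiliary lemmas for an abstract intermediate field.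
-/

set_option autoImplicit false

noncomputable section

namespace Fermat.Agent.S19.B

open AlgebraicCurve ModularCurve Polynomial Fermat.Agent.GAL Fermat.Agent.GAL.KL Fermat.Agent.GAL.KLC

variable (M : ℕ) [NeZero M]

/-- `z = q^e (0 + …)`. -/
def SInt_Higher (e : ℤ) (z : LaurentSeries ℤ) : Prop :=
  ∃ w : PowerSeries ℤ, PowerSeries.constantCoeff w = 0 ∧
    z = HahnSeries.single e 1 * HahnSeries.ofPowerSeries ℤ ℤ w

theorem SInt_Higher.zero (e : ℤ) : SInt_Higher e 0 := ⟨0, by simp, by simp⟩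

theorem SInt_Higher.add {e : ℤ} {z z' : LaurentSeries ℤ} (h : SInt_Higher e z)
    (h' : SInt_Higher e z') : SInt_Higher e (z + z') := by
  obtain ⟨w, hw, rfl⟩ := h
  obtain ⟨w', hw', rfl⟩ := h'
  exact ⟨w + w', by rw [map_add, hw, hw', add_zero], by rw [map_add, mul_add]⟩

theorem SInt_Higher.sum {ι : Type*} (s : Finset ι) {e : ℤ} {z : ι → LaurentSeries ℤ}
    (h : ∀ i ∈ s, SInt_Higher e (z i)) : SInt_Higher e (∑ i ∈ s, z i) := by
  classical
  induction s using Finset.induction_on with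
  | empty => simpa using SInt_Higher.zero e
  | insert a s ha ih =>
    rw [Finset.sum_insert ha]
    exact (h a (Finset.mem_insert_self a s)).add (ih fun i hi => h i (Finset.mem_insert_of_mem hi))

theorem SInt_monic_add {e : ℤ} {y z : LaurentSeries ℤ} (h : XSeries_Monic e y)
    (h' : SInt_Higher e z) : XSeries_Monic e (y + z) := by
  obtain ⟨u, hu, rfl⟩ := h
  obtain ⟨w, hw, rfl⟩ := h'
  exact ⟨u + w, by rw [map_add, hu, hw, add_zero], by rw [map_add, mul_add]⟩

/-- an integer multiple of a monic series of higher order. -/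
theorem SInt_higher_of_monic {e e' : ℤ} {y : LaurentSeries ℤ} (h : XSeries_Monic e' y)
    (hlt : e < e') (c : ℤ) : SInt_Higher e ((c : LaurentSeries ℤ) * y) := by
  obtain ⟨u, hu, rfl⟩ := h
  obtain ⟨k, hk⟩ : ∃ k : ℕ, e' = e + (k + 1 : ℕ) :=
    ⟨(e' - e - 1).toNat, by push_cast; omega⟩
  refine ⟨(c : PowerSeries ℤ) * (PowerSeries.X ^ (k + 1) * u), ?_, ?_⟩
  · rw [map_mul, map_mul, map_pow, PowerSeries.constantCoeff_X, zero_pow (Nat.succ_ne_zero k),
      zero_mul, mul_zero]
  · have h1 : (HahnSeries.single (e + ((k + 1 : ℕ) : ℤ)) (1 : ℤ) : LaurentSeries ℤ)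
        = HahnSeries.single e 1 * HahnSeries.single ((k + 1 : ℕ) : ℤ) 1 := by
      rw [HahnSeries.single_mul_single, mul_one]
    rw [map_mul, map_mul, map_intCast, HahnSeries.ofPowerSeries_X_pow, hk, h1]
    ring

theorem SInt_monic_aeval {μ : ℕ} (hμ : 0 < μ) {x : LaurentSeries ℤ}
    (hx : XSeries_Monic (-(μ : ℤ)) x) (m : ℤ[X]) (hm : m.Monic) :
    XSeries_Monic (-((m.natDegree * μ : ℕ) : ℤ)) (aeval x m) := by
  rw [aeval_def, eval₂_eq_sum_range, Finset.sum_range_succ, add_comm]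
  refine SInt_monic_add ?_ (SInt_Higher.sum _ fun i hi => ?_)
  · rw [hm.coeff_natDegree, map_one, one_mul]
    have := hx.pow m.natDegree
    rwa [show (m.natDegree : ℤ) * (-(μ : ℤ)) = -((m.natDegree * μ : ℕ) : ℤ) by push_cast; ring]
      at this
  · rw [eq_intCast]
    refine SInt_higher_of_monic (hx.pow i) ?_ _
    have hi' : i < m.natDegree := Finset.mem_range.mp hi
    have h1 : (i : ℤ) * μ < m.natDegree * μ := by
      have : i * μ < m.natDegree * μ := Nat.mul_lt_mul_of_pos_right hi' hμ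
      exact_mod_cast this
    push_cast
    linarith

theorem monic_aeval_XZ (m : ℤ[X]) (hm : m.Monic) :
    XSeries_Monic (-((m.natDegree * mX M : ℕ) : ℤ)) (aeval (XZ M) m) :=
  SInt_monic_aeval (mX_pos M) (XZ_eq M) m hm

theorem exists_mul_eq_one_of_monic {e : ℤ} {y : LaurentSeries ℤ} (h : XSeries_Monic e y) :
    ∃ y' : LaurentSeries ℤ, XSeries_Monic (-e) y' ∧ y * y' = 1 := by
  obtain ⟨u, hu, hy⟩ := h
  have h1 : u * u.invOfUnit 1 = 1 := PowerSeries.mul_invOfUnit _ _ (by rw [hu]; rfl)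
  have h2 : PowerSeries.constantCoeff (u.invOfUnit 1) = 1 := by
    have := congrArg PowerSeries.constantCoeff h1
    rwa [map_mul, hu, one_mul, map_one] at this
  refine ⟨HahnSeries.single (-e) 1 * HahnSeries.ofPowerSeries ℤ ℤ (u.invOfUnit 1),
    ⟨u.invOfUnit 1, h2, rfl⟩, ?_⟩
  rw [hy, mul_mul_mul_comm, HahnSeries.single_mul_single, ← map_mul, h1, add_neg_cancel, one_mul,
    map_one (HahnSeries.ofPowerSeries ℤ ℤ), mul_one]
  rfl

/-- abstract form of `coe_aeval_xF`. -/
theorem SInt_coe_aeval {K : Type*} [Field K] (F : IntermediateField K (LaurentSeries K))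
    (X₀ : LaurentSeries ℤ) (x : F) (hx : (x : LaurentSeries K) = coeffMap (Int.castRingHom K) X₀)
    (m : ℤ[X]) :
    ((aeval x (m.map (Int.castRingHom K)) : F) : LaurentSeries K)
      = coeffMap (Int.castRingHom K) (aeval X₀ m) := by
  let φ1 : ℤ[X] →+* LaurentSeries K :=
    (F.val : F →+* LaurentSeries K).comp
      (((aeval x : K[X] →ₐ[K] F) : K[X] →+* F).comp (mapRingHom (Int.castRingHom K)))
  let φ2 : ℤ[X] →+* LaurentSeries K :=
    (coeffMap (Int.castRingHom K)).comp ((aeval X₀ : ℤ[X] →ₐ[ℤ] LaurentSeries ℤ) : ℤ[X] →+* _)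
  have h : φ1 = φ2 := by
    apply Polynomial.ringHom_ext
    · intro a
      have h1 : φ1.comp C = φ2.comp C := RingHom.ext_int _ _
      exact congrArg (fun f : ℤ →+* LaurentSeries K => f a) h1
    · show ((aeval x (Polynomial.map (Int.castRingHom K) X) : F) : LaurentSeries K)
        = coeffMap (Int.castRingHom K) (aeval X₀ X)
      rw [Polynomial.map_X, aeval_X, aeval_X, hx]
  exact congrArg (fun f : ℤ[X] →+* LaurentSeries K => f m) h

theorem coe_aeval_xF (m : ℤ[X]) :
    ((aeval (xF M) (m.map (Int.castRingHom Qb)) : FL Qb M) : LaurentSeries Qb)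
      = coeffMap (Int.castRingHom Qb) (aeval (XZ M) m) :=
  SInt_coe_aeval (FL Qb M) (XZ M) (xF M) rfl m

/-- the `q`-expansion of `s` has integer coefficients (and positive order). -/
theorem exists_sZ (m : ℤ[X]) (hm : m.Monic) :
    ∃ y : LaurentSeries ℤ, XSeries_Monic ((m.natDegree * mX M : ℕ) : ℤ) y ∧
      ((sM M m : FL Qb M) : LaurentSeries Qb) = coeffMap (Int.castRingHom Qb) y := by
  obtain ⟨y, hy, hmul⟩ := exists_mul_eq_one_of_monic (monic_aeval_XZ M m hm)
  rw [neg_neg] at hy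
  refine ⟨y, hy, ?_⟩
  have h1 : ((sM M m : FL Qb M) : LaurentSeries Qb)
      = ((aeval (xF M) (m.map (Int.castRingHom Qb)) : FL Qb M) : LaurentSeries Qb)⁻¹ := rfl
  rw [h1, coe_aeval_xF]
  apply inv_eq_of_mul_eq_one_right
  rw [← map_mul, hmul, map_one]

end Fermat.Agent.S19.B
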