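import Fermat.Agent.S19.B.Small
import Fermat.Agent.S19.B.SInt
import Fermat.Agent.S19.R.Export
import Fermat.Agent.S37.Inv.IntA

/-!
# S19 / B2 = (BL): a function of `B_s ∩ O_v` has `q`-coefficients in `A`

Proof.  `S := A.toSubring`, `R := S28.coeffSubring S ⊆ ℚ̄((q))` (`S28.mem_coeffSubring_iff`: all coefficients in `S`).
1. `chart_sM`: `R.chart_inv_aeval (chart_xF M A) (m.map _) …` (coefficients are integers: `vK v (n : Qb) ≤ 1` by
   `(setting M A).vA` and `A.toSubring.intCast_mem`/`ValArch.intCast_le_one`; leading coefficient `1`).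
2. `S37.Inv.isIntegralElem_toInt ⟨s, _⟩ hG β hβ hβs ⟨z, hv⟩ hz` : `z` is a root of a monic polynomial `P` with coefficients in the image
   of `(AK Qb v)[X] → O_v`, `X ↦ s`.
3. `g : (AK Qb v)[X] →+* R := eval₂RingHom (c ↦ ⟨HahnSeries.C c, _⟩) ⟨(s : LaurentSeries Qb), hs⟩`, `hs` from `exists_sZ`
   (integers lie in `A`); `Subtype.val ∘ g = (coe : O_v → ℚ̄((q))) ∘ eval₂RingHom (toInt ..) s` by `Polynomial.ringHom_ext`
   (`ValArch.coe_algebraMap`: the series of a constant is `HahnSeries.C c`).  So `P.map g` shows `IsIntegral R (z : LaurentSeries Qb)`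
   (pattern: the end of the proof of `S37.Inv.val_mem_AK`).
4. `hv` gives `HasRed A z zb` (`ValThm_le_one_iff`), i.e. `P Q : LaurentSeries A`, `Q̄ ≠ 0`, `z * coeffMap A.subtype Q = coeffMap A.subtype P`.
   `b := coeffMap A.subtype Q ≠ 0`, `b ∈ R`, `b * z ∈ R` (`coeffMap_coeff`).
5. `cic_mem_of_isIntegral S (cic_A A hℓ hA) z b …`, then `S28.mem_coeffSubring_iff`.
-/

set_option autoImplicit false

noncomputable section

namespace Fermat.Agent.S19.B

open AlgebraicCurve ModularCurve Polynomial Fermat.Agent.S24.FF Fermat.Agent.S27 Fermat.Agent.GAL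
  Fermat.Agent.GAL.KL Fermat.Agent.GAL.KLC Fermat.Agent.S19.R Fermat.Agent.S19.I

variable (M : ℕ) [NeZero M] (A : ValuationSubring Qb)

theorem chart_sM (m : ℤ[X]) (hm : m.Monic) (hmd : 0 < m.natDegree) :
    Chart Qb (vG A M) (sM M m) := by
  have hS := setting M A
  set q : Qb[X] := m.map (Int.castRingHom Qb) with hq
  have hqmon : q.Monic := hm.map _
  have hqdeg : 0 < q.natDegree := by rw [hq, hm.natDegree_map]; exact hmd
  have hqA : ∀ i, vK (vG A M) (q.coeff i) ≤ 1 := by
    intro i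
    rw [vK_apply, hS.vA, hq, coeff_map]
    exact intCast_mem A _
  exact chart_inv_aeval (chart_xF M A) q hqdeg hqA (by rw [hqmon.leadingCoeff, map_one])

/-- abstract glue: integrality over the image of `(AK)[X]` transported along a ring homomorphism `ι`. -/
theorem BL_isIntegral_of_elem {R₀ O E : Type*} [CommRing R₀] [CommRing O] [CommRing E]
    (f : R₀ →+* O) (ι : O →+* E) (R : Subring E) (g : R₀ →+* R)
    (hg : R.subtype.comp g = ι.comp f) {z : O} (hz : f.IsIntegralElem z) : IsIntegral R (ι z) := by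
  obtain ⟨P, hP, h0⟩ := hz
  refine ⟨P.map g, hP.map g, ?_⟩
  have h1 : algebraMap R E = R.subtype := rfl
  rw [eval₂_map, h1, hg, ← hom_eval₂, h0, map_zero]

theorem BL_C_mem {a : Qb} (ha : a ∈ A) :
    (HahnSeries.C a : LaurentSeries Qb) ∈ S28.coeffSubring (Γ := ℤ) A.toSubring := by
  rw [S28.mem_coeffSubring_iff]
  intro γ
  by_cases hγ : γ = 0
  · subst hγ
    have : (HahnSeries.C a : LaurentSeries Qb).coeff 0 = a := HahnSeries.coeff_single_same 0 a
    rw [this]
    exact ha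
  · have : (HahnSeries.C a : LaurentSeries Qb).coeff γ = 0 := HahnSeries.coeff_single_of_ne hγ
    rw [this]
    exact A.zero_mem

theorem BL_coeffMap_mem (y : LaurentSeries A) :
    coeffMap A.subtype y ∈ S28.coeffSubring (Γ := ℤ) A.toSubring := by
  rw [S28.mem_coeffSubring_iff]
  intro γ
  rw [coeffMap_coeff]
  exact (y.coeff γ).2

theorem BL_coeffMap_int_mem (y : LaurentSeries ℤ) :
    coeffMap (Int.castRingHom Qb) y ∈ S28.coeffSubring (Γ := ℤ) A.toSubring := by
  rw [S28.mem_coeffSubring_iff]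
  intro γ
  rw [coeffMap_coeff]
  exact intCast_mem A _

/-- (BL). -/
theorem coeff_mem' {ℓ : ℕ} (hℓ : ℓ.Prime) (hA : A.LiesOverPrime ℓ) (m : ℤ[X]) (hm : m.Monic)
    (hmd : 0 < m.natDegree) (z : FL Qb M) (hz : IsInt Qb (sM M m) z) (hv : vG A M z ≤ 1) (i : ℤ) :
    (z : LaurentSeries Qb).coeff i ∈ A := by
  obtain ⟨hG, d, β, hβ, hβs⟩ := chart_sM M A m hm hmd
  have hS := setting M A
  have hsv : vG A M (sM M m) ≤ 1 := hG.v_t.le
  have hint := S37.Inv.isIntegralElem_toInt (⟨sM M m, hsv⟩ : (vG A M).integer) hG β hβ hβs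
    (⟨z, hv⟩ : (vG A M).integer) hz
  obtain ⟨y, -, hy⟩ := exists_sZ M m hm
  have hs : ((sM M m : FL Qb M) : LaurentSeries Qb) ∈ S28.coeffSubring (Γ := ℤ) A.toSubring := by
    rw [hy]
    exact BL_coeffMap_int_mem A y
  let ι : (vG A M).integer →+* LaurentSeries Qb :=
    ((FL Qb M).val : FL Qb M →+* LaurentSeries Qb).comp (vG A M).integer.subtype
  let cR : KLB.AK Qb (vG A M) →+* S28.coeffSubring (Γ := ℤ) A.toSubring :=
    ((HahnSeries.C : Qb →+* LaurentSeries Qb).comp (KLB.AK Qb (vG A M)).subtype).codRestrict _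
      (fun a => BL_C_mem A ((hS.vA a).1 a.2))
  let g : (KLB.AK Qb (vG A M))[X] →+* S28.coeffSubring (Γ := ℤ) A.toSubring :=
    eval₂RingHom cR ⟨_, hs⟩
  have hg : (S28.coeffSubring (Γ := ℤ) A.toSubring).subtype.comp g =
      ι.comp (eval₂RingHom (KLB.toInt Qb (vG A M)) (⟨sM M m, hsv⟩ : (vG A M).integer)) := by
    apply Polynomial.ringHom_ext
    · intro a
      simp only [RingHom.comp_apply, coe_eval₂RingHom, eval₂_C, g]
      exact (ValThm_coe_algebraMap M (a : Qb)).symm
    · simp only [RingHom.comp_apply, coe_eval₂RingHom, eval₂_X, g]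
      rfl
  have hI : IsIntegral (S28.coeffSubring (Γ := ℤ) A.toSubring) (z : LaurentSeries Qb) :=
    BL_isIntegral_of_elem _ ι _ g hg hint
  obtain ⟨zb, P, Q, hQ, -, hPQ⟩ := (ValThm_le_one_iff A M).1 hv
  have hb0 : coeffMap A.subtype Q ≠ 0 := by
    intro h0
    apply hQ
    have : Q = 0 := GR.incl_injective (by rw [h0, map_zero])
    rw [this, map_zero]
  have hmem := cic_mem_of_isIntegral A.toSubring (cic_A A hℓ hA) (z : LaurentSeries Qb)
    (coeffMap A.subtype Q) hI hb0 (BL_coeffMap_mem A Q) (by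
      rw [mul_comm, hPQ]
      exact BL_coeffMap_mem A P)
  exact (S28.mem_coeffSubring_iff _ _).1 hmem i

/-- a series with coefficients in `A` comes from `A((q))`. -/
theorem exists_coeffMap_eq (x : LaurentSeries Qb) (h : ∀ i, x.coeff i ∈ A) :
    ∃ y : LaurentSeries A, coeffMap A.subtype y = x := by
  refine ⟨HahnSeries.mk (fun i => (⟨x.coeff i, h i⟩ : A)) (x.isPWO_support.mono ?_), ?_⟩
  · intro i hi
    simp only [Function.mem_support, ne_eq] at hi
    rw [HahnSeries.mem_support]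
    intro h0
    exact hi (Subtype.ext h0)
  · ext i
    rw [coeffMap_coeff]
    rfl

end Fermat.Agent.S19.B
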