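import Fermat.Agent.S19.I.Defs
import Fermat.Agent.GAL.KLC.MainOf
import Fermat.Agent.GAL.KLC.Spans

/-!
# S19 / B : definitions (`galM`, `sM`), moved verbatim from `B/Export.lean` (no sorry)
-/

set_option autoImplicit false

noncomputable section

namespace Fermat.Agent.S19.B

open AlgebraicCurve ModularCurve Polynomial Fermat.Agent.S24.FF Fermat.Agent.S27 Fermat.Agent.GAL
  Fermat.Agent.GAL.KL Fermat.Agent.GAL.KLC Fermat.Agent.S19.R Fermat.Agent.S19.I

variable (M : ℕ) [NeZero M] (A : ValuationSubring Qb)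

/-- the Galois action on `FL ℚ̄ M`. -/
abbrev galM : S19.GQ →* SemilinearAut Qb (FL Qb M) := arithmeticGalois (modularFunctionFieldFull M)

/-- the rational chart `s = 1/m(x)`. -/
def sM (m : ℤ[X]) : FL Qb M := (aeval (xF M) (m.map (Int.castRingHom Qb)))⁻¹

theorem chart_xF : Chart Qb (vG A M) (xF M) :=
  ⟨gauss_xF M A, _, _, on_xF M A, spans M⟩

end Fermat.Agent.S19.B
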