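import Fermat.Agent.S19.B.RB

/-!
# S19 / B : rational orthonormal bases (concrete: `F = FL ℚ̄ M`, `v = vG A M`).
THE EXPORTS of the block (statements fixed by helper73; proofs: SPEC.md §B).  Sub-architect: helper28.
`galM`, `sM`, `chart_xF` : `B/Defs.lean`;  `setting`, `galM_smul_sM` : `B/Small.lean` (sorry-free).
-/

set_option autoImplicit false

noncomputable section

namespace Fermat.Agent.S19.B

open AlgebraicCurve ModularCurve Polynomial Fermat.Agent.S24.FF Fermat.Agent.S27 Fermat.Agent.GAL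
  Fermat.Agent.GAL.KL Fermat.Agent.GAL.KLC Fermat.Agent.S19.R Fermat.Agent.S19.I

variable (M : ℕ) [NeZero M] (A : ValuationSubring Qb)

/-- (BL): a function of `B_s ∩ O_v` has `q`-coefficients in `A`. -/
theorem coeff_mem {ℓ : ℕ} (hℓ : ℓ.Prime) (hA : A.LiesOverPrime ℓ) (m : ℤ[X]) (hm : m.Monic)
    (hmd : 0 < m.natDegree) (z : FL Qb M) (hz : IsInt Qb (sM M m) z) (hv : vG A M z ≤ 1) (i : ℤ) :
    (z : LaurentSeries Qb).coeff i ∈ A :=
  coeff_mem' M A hℓ hA m hm hmd z hz hv i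

/-- (RB). -/
theorem rb {ℓ : ℕ} (hℓ : ℓ.Prime) (hA : A.LiesOverPrime ℓ) (m : ℤ[X]) (hm : m.Monic)
    (hmd : 0 < m.natDegree) : RB A (vG A M) (galM M) (sM M m) :=
  rb' M A hℓ hA m hm hmd

end Fermat.Agent.S19.B
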