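import Mathlib

/-!
# S19 / B3 : linearly independent Laurent series have a nonzero minor (Mathlib only)

Proof.  The rows `row n := fun l => (f l).coeff n ∈ k^r` (`n : ℤ`) span `k^r`: otherwise there is a nonzero linear form vanishing on all of
them (`Submodule.exists_le_ker_of_lt_top` / `Module.Dual`, or `Submodule.exists_dual_map_eq_bot_of_lt_top`), i.e. `c ≠ 0` with
`∑ l, c l * (f l).coeff n = 0` for all `n`, i.e. `∑ l, c l • f l = 0`, contradicting `hf` (`Fintype.linearIndependent_iff`).
Extract `r` independent rows: `Submodule.exists_fun_fin_finrank_span_eq k (Set.range row)` (`finrank (span) = finrank k (Fin r → k) = r`).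
`r` independent vectors of `k^r` have nonzero determinant: `Matrix.linearIndependent_rows_iff_isUnit`, `Matrix.isUnit_iff_isUnit_det`.
-/

set_option autoImplicit false

noncomputable section

namespace Fermat.Agent.S19.B

theorem minor_span_top {k : Type*} [Field k] {r : ℕ} (f : Fin r → LaurentSeries k)
    (hf : LinearIndependent k f) :
    Submodule.span k (Set.range fun n : ℤ => (fun l : Fin r => (f l).coeff n)) = ⊤ := by
  by_contra hne
  obtain ⟨φ, hφ0, hφ⟩ := Submodule.exists_le_ker_of_lt_top _ (lt_top_iff_ne_top.mpr hne)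
  apply hφ0
  have hrow : ∀ n : ℤ, φ (fun l : Fin r => (f l).coeff n) = 0 := fun n =>
    hφ (Submodule.subset_span ⟨n, rfl⟩)
  have hexp : ∀ x : Fin r → k, φ x = ∑ l, x l * φ (Pi.single l 1) := by
    intro x
    conv_lhs => rw [← Finset.univ_sum_single x]
    rw [map_sum]
    refine Finset.sum_congr rfl fun l _ => ?_
    have : (Pi.single l (x l) : Fin r → k) = x l • Pi.single l 1 := by
      rw [← Pi.single_smul, smul_eq_mul, mul_one]
    rw [this, map_smul, smul_eq_mul]
  have hrel : ∑ l, φ (Pi.single l 1) • f l = 0 := by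
    ext n
    rw [HahnSeries.coeff_zero]
    have h := hrow n
    rw [hexp] at h
    have h2 : (∑ l, φ (Pi.single l 1) • f l).coeff n = ∑ l, (φ (Pi.single l 1) • f l).coeff n :=
      map_sum (HahnSeries.coeff.addMonoidHom n) _ _
    rw [h2, ← h]
    refine Finset.sum_congr rfl fun l _ => ?_
    rw [HahnSeries.coeff_smul, smul_eq_mul, mul_comm]
  have hc := Fintype.linearIndependent_iff.mp hf _ hrel
  refine LinearMap.ext fun x => ?_
  rw [hexp x]
  simp [hc]

theorem exists_minor {k : Type*} [Field k] {r : ℕ} (f : Fin r → LaurentSeries k)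
    (hf : LinearIndependent k f) :
    ∃ i : Fin r → ℤ, (Matrix.of fun a l => (f l).coeff (i a)).det ≠ 0 := by
  classical
  have htop := minor_span_top f hf
  obtain ⟨g, hg, hspan, hli⟩ := Submodule.exists_fun_fin_finrank_span_eq k
    (Set.range fun n : ℤ => (fun l : Fin r => (f l).coeff n))
  have hfr : Module.finrank k (Submodule.span k
      (Set.range fun n : ℤ => (fun l : Fin r => (f l).coeff n))) = r := by
    rw [htop, finrank_top, Module.finrank_fin_fun]
  choose i hi using hg
  refine ⟨fun a => i (Fin.cast hfr.symm a), ?_⟩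
  have hli' : LinearIndependent k (fun a : Fin r => g (Fin.cast hfr.symm a)) :=
    hli.comp _ (Fin.cast_injective _)
  have hM : (Matrix.of fun (a : Fin r) (l : Fin r) => (f l).coeff (i (Fin.cast hfr.symm a))).row
      = fun a : Fin r => g (Fin.cast hfr.symm a) := by
    funext a
    rw [← hi]
    rfl
  have hu := Matrix.linearIndependent_rows_iff_isUnit (K := k)
    (A := Matrix.of fun (a : Fin r) (l : Fin r) => (f l).coeff (i (Fin.cast hfr.symm a)))
  rw [hM] at hu
  exact ((Matrix.isUnit_iff_isUnit_det _).mp (hu.mp hli')).ne_zero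

end Fermat.Agent.S19.B
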