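import Fermat.Agent.S19.B.Minor
import Fermat.Prelude.Def_ModularCurve_LaurentCoeff

/-!
# S19 / B4 : the basis dual to coefficient functionals (abstract)

`K` a field, `A` a valuation subring, `W ⊆ K((q))` of dimension `r`, `y_1..y_r ∈ A((q))` lying in `W` with linearly independent reductions.
Proof.  `exists_minor` for the reductions gives `i : Fin r → ℤ`.  `C := Matrix.of fun a l => (y l).coeff (i a) : Matrix _ _ A`;
`residue (det C) = det (reduced matrix) ≠ 0` (`RingHom.map_det`, `coeffMap_coeff`), so `det C` is a unit of the local ring `A`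
(`IsLocalRing.residue_ne_zero_iff_isUnit`/`IsLocalRing.notMem_maximalIdeal`), `C` is invertible over `A` (`Matrix.isUnit_iff_isUnit_det`, `C⁻¹`, `Matrix.mul_nonsing_inv`).
`w l := ∑ j, ((C⁻¹ j l : A) : K) • coeffMap A.subtype (y j)`: lies in `W`, coefficients in `A`,
`(w l).coeff (i a) = ∑ j, C a j * C⁻¹ j l = δ_{a l}`.  Hence `w` is linearly independent (apply the coefficient functionals to a relation), so it
is a basis of `W` (`r = finrank`: `LinearIndependent.span_eq_top_of_card_eq_finrank'` in the subtype `W`, or `Submodule.eq_of_le_of_finrank_eq`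
for `span (range w) ≤ W`, `finrank_span_eq_card`).  For `z ∈ W` write `z = ∑ c_a • w_a` and take the coefficient at `i a`: `c_a = z.coeff (i a)`.
-/

set_option autoImplicit false

noncomputable section

namespace Fermat.Agent.S19.B

open ModularCurve

theorem rbAbs_coeff_sum {K : Type*} [Field K] {ι : Type*} (s : Finset ι) (c : ι → K)
    (w : ι → LaurentSeries K) (n : ℤ) :
    (∑ a ∈ s, c a • w a).coeff n = ∑ a ∈ s, c a * (w a).coeff n := by
  have h2 : (∑ a ∈ s, c a • w a).coeff n = ∑ a ∈ s, (c a • w a).coeff n :=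
    map_sum (HahnSeries.coeff.addMonoidHom n) _ _
  rw [h2]
  refine Finset.sum_congr rfl fun l _ => ?_
  rw [HahnSeries.coeff_smul, smul_eq_mul]

theorem exists_dual_basis {K : Type*} [Field K] (A : ValuationSubring K)
    (W : Submodule K (LaurentSeries K)) [FiniteDimensional K W] {r : ℕ}
    (hr : Module.finrank K W = r) (y : Fin r → LaurentSeries A)
    (hy : ∀ l, coeffMap A.subtype (y l) ∈ W)
    (hli : LinearIndependent (IsLocalRing.ResidueField A)
      (fun l => coeffMap (IsLocalRing.residue A) (y l))) :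
    ∃ (i : Fin r → ℤ) (w : Fin r → LaurentSeries K), (∀ l, w l ∈ W) ∧ (∀ l n, (w l).coeff n ∈ A) ∧
      (∀ a l, (w l).coeff (i a) = if a = l then 1 else 0) ∧ LinearIndependent K w ∧
      ∀ z ∈ W, z = ∑ a, z.coeff (i a) • w a := by
  classical
  obtain ⟨i, hi⟩ := exists_minor _ hli
  set C : Matrix (Fin r) (Fin r) A := Matrix.of fun a l => (y l).coeff (i a) with hC
  have hdet : IsLocalRing.residue A C.det ≠ 0 := by
    rw [RingHom.map_det]
    have hM : (IsLocalRing.residue A).mapMatrix C
        = Matrix.of fun a l => ((coeffMap (IsLocalRing.residue A)) (y l)).coeff (i a) := by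
      ext a l
      simp [hC, coeffMap_coeff]
    rw [hM]
    exact hi
  have hu : IsUnit C.det := (IsLocalRing.residue_ne_zero_iff_isUnit _).mp hdet
  have hmul : C * C⁻¹ = 1 := Matrix.mul_nonsing_inv C hu
  set w : Fin r → LaurentSeries K :=
    fun l => ∑ j, ((C⁻¹ j l : A) : K) • coeffMap A.subtype (y j) with hw
  have hwc : ∀ l n, (w l).coeff n = ((∑ j, C⁻¹ j l * (y j).coeff n : A) : K) := by
    intro l n
    rw [hw]
    simp only
    rw [rbAbs_coeff_sum]
    push_cast
    refine Finset.sum_congr rfl fun j _ => ?_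
    rw [coeffMap_coeff]
    rfl
  have hwW : ∀ l, w l ∈ W := fun l =>
    Submodule.sum_mem _ fun j _ => Submodule.smul_mem _ _ (hy j)
  have hwA : ∀ l n, (w l).coeff n ∈ A := by
    intro l n
    rw [hwc]
    exact Subtype.coe_prop _
  have hdelta : ∀ a l, (w l).coeff (i a) = if a = l then 1 else 0 := by
    intro a l
    rw [hwc]
    have h1 : (∑ j, C⁻¹ j l * (y j).coeff (i a) : A) = (C * C⁻¹) a l := by
      rw [Matrix.mul_apply]
      refine Finset.sum_congr rfl fun j _ => ?_
      rw [mul_comm]
      rfl
    rw [h1, hmul, Matrix.one_apply]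
    split_ifs <;> simp
  have hcoef : ∀ (c : Fin r → K) (a : Fin r), (∑ l, c l • w l).coeff (i a) = c a := by
    intro c a
    rw [rbAbs_coeff_sum]
    simp only [hdelta]
    simp
  have hwli : LinearIndependent K w := by
    rw [Fintype.linearIndependent_iff]
    intro c hc a
    have := hcoef c a
    rw [hc, HahnSeries.coeff_zero] at this
    exact this.symm
  have hspan : Submodule.span K (Set.range w) = W := by
    apply Submodule.eq_of_le_of_finrank_eq
    · rw [Submodule.span_le]
      rintro _ ⟨l, rfl⟩
      exact hwW l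
    · rw [finrank_span_eq_card hwli, hr, Fintype.card_fin]
  refine ⟨i, w, hwW, hwA, hdelta, hwli, fun z hz => ?_⟩
  rw [← hspan] at hz
  obtain ⟨c, rfl⟩ := (Submodule.mem_span_range_iff_exists_fun K).mp hz
  refine Finset.sum_congr rfl fun a _ => ?_
  rw [hcoef c a]

end Fermat.Agent.S19.B
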