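import Fermat.Agent.S19.B.BL
import Fermat.Agent.S19.B.RBAbs
import Fermat.Agent.GAL.KLC.LLeqL
import Fermat.Agent.GAL.FF.LSpace

/-!
# S19 / B5 = (RB): rational orthonormal bases of `LL ℚ̄ s a`, `s = 1/m(x)`

Black boxes: `chart_sM`, `coeff_mem'` (BL), `exists_coeffMap_eq`, `exists_dual_basis`, `galM_smul_sM`, `semi_smul_aeval`.
Fix `a`; `W₀ := LL Qb s a` (a `Qb`-subspace of `FL Qb M`).
1. `W₀` is finite dimensional: `KLC.LL_eq_L ht a` (`ht : Transcendental Qb s` from `hs.gauss.inj`, see `S37.Inv.CountHyp.transcendental`) and the instance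
   `FF.finite_L`.  `r := finrank W₀`.
2. `KLB.exists_linearIndependent_red (isRed A M) (KLB.hasFun_BBs hs.gauss β hβ hβs) W₀ (KLB.LL_le_BBs s a)`: `z : Fin r → O_v`, `z l ∈ W₀`, `ρ (z l)` independent.
3. (BL) + `exists_coeffMap_eq`: `(z l : LaurentSeries Qb) = coeffMap A.subtype (y l)`; `rho A M (z l) = coeffMap (residue A) (y l)` by
   `rho_eq_of_hasRed A M (GR.HasRed.of_int (y l))`.
4. `W := W₀.map (the inclusion FL Qb M →ₗ[Qb] LaurentSeries Qb)` (`(FL Qb M).val.toLinearMap`), same finrank (`LinearEquiv.finrank_eq (Submodule.equivMapOfInjective ..)`).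
   `exists_dual_basis A W hr y …` gives `i`, `w`.  Pull `w l` back to `w' l ∈ W₀`.
5. `IsInt Qb s (w' l)` (`W₀ ≤ BBs`); `vG A M (w' l) ≤ 1`: coefficients in `A` ⇒ `exists_coeffMap_eq` ⇒ `HasRed.of_int` ⇒ `ValThm_le_one_iff`.
6. `galM M σ • w' l ∈ W₀` (`LL_semi`), its coefficient at `i a` is `σ (δ_{al}) = δ_{al}` (`coe_galM_smul`, `coeffMap_coeff`), so by the expansion formula it equals `w' l`.
7. `z ∈ W₀`, `v z ≤ 1`: `α a := (z : LaurentSeries Qb).coeff (i a) ∈ A` by (BL).
-/

set_option autoImplicit false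

noncomputable section

namespace Fermat.Agent.S19.B

open AlgebraicCurve ModularCurve Polynomial Fermat.Agent.S24.FF Fermat.Agent.S27 Fermat.Agent.GAL
  Fermat.Agent.GAL.KL Fermat.Agent.GAL.KLC Fermat.Agent.S19.R Fermat.Agent.S19.I

/-- integrality over `K[t]` is preserved by a semilinear automorphism fixing `t` (apply `g` to the monic equation, `semi_smul_aeval`). -/
theorem IsInt_semi {K F : Type*} [Field K] [Field F] [Algebra K F] (g : SemilinearAut K F) {t z : F}
    (ht : g • t = t) (hz : IsInt K t z) : IsInt K t (g • z) := by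
  obtain ⟨P, hP, hPz⟩ := hz
  let τ : K[X] →+* K[X] := Polynomial.mapRingHom ((SemilinearAut.baseAut g : K ≃+* K) : K →+* K)
  refine ⟨P.map τ, hP.map τ, ?_⟩
  have key : ∀ Q : K[X][X], eval₂ ((aeval t : K[X] →ₐ[K] F) : K[X] →+* F) (g • z) (Q.map τ)
      = g • eval₂ ((aeval t : K[X] →ₐ[K] F) : K[X] →+* F) z Q := by
    intro Q
    induction Q using Polynomial.induction_on' with
    | add p q hp hq => rw [Polynomial.map_add, eval₂_add, eval₂_add, smul_add, hp, hq]
    | monomial n a =>
      rw [Polynomial.map_monomial, eval₂_monomial, eval₂_monomial, smul_mul', smul_pow']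
      congr 1
      have := semi_smul_aeval g t a
      rw [ht] at this
      exact this.symm
  rw [key, hPz, smul_zero]

theorem LL_semi {K F : Type*} [Field K] [Field F] [Algebra K F] (g : SemilinearAut K F) {t z : F}
    (ht : g • t = t) {a : ℕ} (hz : z ∈ LL K t a) : g • z ∈ LL K t a := by
  have ht' : g • t⁻¹ = t⁻¹ := by rw [smul_inv₀', ht]
  refine ⟨IsInt_semi g ht hz.1, ?_⟩
  have := IsInt_semi g ht' hz.2
  rwa [smul_mul', smul_pow', ht'] at this

theorem rb_core {K : Type*} [Field K] (A : ValuationSubring K)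
    (E : IntermediateField K (LaurentSeries K))
    (W₀ : Submodule K E) [FiniteDimensional K W₀] {r : ℕ} (hr : Module.finrank K W₀ = r)
    (y : Fin r → LaurentSeries A) (z : Fin r → E)
    (hz : ∀ l, z l ∈ W₀) (hzy : ∀ l, (z l : LaurentSeries K) = coeffMap A.subtype (y l))
    (hli : LinearIndependent (IsLocalRing.ResidueField A)
      fun l => coeffMap (IsLocalRing.residue A) (y l)) :
    ∃ (i : Fin r → ℤ) (w : Fin r → E), (∀ l, w l ∈ W₀) ∧
      (∀ l n, (w l : LaurentSeries K).coeff n ∈ A) ∧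
      (∀ a l, (w l : LaurentSeries K).coeff (i a) = if a = l then 1 else 0) ∧ LinearIndependent K w ∧
      ∀ z ∈ W₀, z = ∑ a, (z : LaurentSeries K).coeff (i a) • w a := by
  let ι : E →ₗ[K] LaurentSeries K :=
    { toFun := Subtype.val, map_add' := fun _ _ => rfl, map_smul' := fun c x => by
        rw [RingHom.id_apply, Algebra.smul_def, ← HahnSeries.C_mul_eq_smul]
        show (algebraMap K (LaurentSeries K) c) * (x : LaurentSeries K) = _
        rw [algebraMap_laurentSeries_eq_single]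
        rfl }
  have hι : Function.Injective ι := Subtype.val_injective
  let W : Submodule K (LaurentSeries K) := W₀.map ι
  let e : W₀ ≃ₗ[K] W := Submodule.equivMapOfInjective ι hι W₀
  have : FiniteDimensional K W := LinearEquiv.finiteDimensional e
  have hrW : Module.finrank K W = r := by rw [← hr]; exact (LinearEquiv.finrank_eq e).symm
  obtain ⟨i, w, hwW, hwA, hwd, hwli, hexp⟩ := exists_dual_basis A W hrW y
    (fun l => ⟨z l, hz l, hzy l⟩) hli
  choose w' hw'W hw' using hwW
  have hw'' : ∀ l, ((w' l : E) : LaurentSeries K) = w l := hw'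
  refine ⟨i, w', hw'W, fun l n => by rw [hw'']; exact hwA l n, fun a l => by rw [hw'']; exact hwd a l,
    ?_, ?_⟩
  · apply LinearIndependent.of_comp ι
    have : (ι ∘ w') = w := funext hw'
    rw [this]
    exact hwli
  · intro x hx
    apply hι
    have h1 := hexp (ι x) ⟨x, hx, rfl⟩
    rw [map_sum]
    refine h1.trans (Finset.sum_congr rfl fun a _ => ?_)
    rw [map_smul, hw']
    rfl

theorem rb_sum_ite {K V : Type*} [Field K] [AddCommGroup V] [Module K V] {r : ℕ} (w : Fin r → V)
    (k : Fin r) : ∑ a, (if a = k then (1 : K) else 0) • w a = w k := by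
  simp

variable (M : ℕ) [NeZero M] (A : ValuationSubring Qb)

/-- (RB). -/
theorem rb' {ℓ : ℕ} (hℓ : ℓ.Prime) (hA : A.LiesOverPrime ℓ) (m : ℤ[X]) (hm : m.Monic)
    (hmd : 0 < m.natDegree) : RB A (vG A M) (galM M) (sM M m) := by
  intro a
  have hs := chart_sM M A m hm hmd
  obtain ⟨d, β, hβ, hβs⟩ := hs.on
  have : IsFF1 Qb (FL Qb M) := Fermat.Agent.S24.instIsFF1FN M
  have ht : Transcendental Qb (sM M m) := by
    rw [transcendental_iff]
    intro p hp
    exact hs.gauss.inj p hp
  have : FiniteDimensional Qb (LL Qb (sM M m) a) := by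
    rw [LL_eq_L ht a]
    infer_instance
  obtain ⟨z, hzW, hzli⟩ := KLB.exists_linearIndependent_red (isRed A M)
    (KLB.hasFun_BBs hs.gauss β hβ hβs) (LL Qb (sM M m) a) (KLB.LL_le_BBs _ a)
  have hy : ∀ l, ∃ y : LaurentSeries A,
      coeffMap A.subtype y = ((z l : FL Qb M) : LaurentSeries Qb) := fun l =>
    exists_coeffMap_eq A _ (coeff_mem' M A hℓ hA m hm hmd _ (hzW l).1 (z l).2)
  choose y hy using hy
  have hρ : ∀ l, rho A M (z l) = coeffMap (IsLocalRing.residue A) (y l) := fun l =>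
    rho_eq_of_hasRed A M (by rw [← hy l]; exact GR.HasRed.of_int (y l))
  obtain ⟨i, w, hwW, hwA, hwd, hwli, hexp⟩ := rb_core A (FL Qb M) (LL Qb (sM M m) a) rfl y
    (fun l => z l) hzW (fun l => (hy l).symm) (by simpa only [hρ] using hzli)
  refine ⟨_, w, hwli, fun k => ⟨(hwW k).1, ?_, fun σ => ?_⟩, fun x hx hxv =>
    ⟨fun k => (x : LaurentSeries Qb).coeff (i k),
      fun k => coeff_mem' M A hℓ hA m hm hmd x hx.1 hxv _, hexp x hx⟩⟩
  · obtain ⟨y', hy'⟩ := exists_coeffMap_eq A _ (hwA k)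
    exact (ValThm_le_one_iff A M).2 ⟨_, by rw [← hy']; exact GR.HasRed.of_int y'⟩
  · have h1 := hexp _ (LL_semi (galM M σ) (galM_smul_sM M m σ) (hwW k))
    have h2 : ∀ b, ((galM M σ • w k : FL Qb M) : LaurentSeries Qb).coeff (i b)
        = if b = k then 1 else 0 := by
      intro b
      rw [coe_galM_smul, coeffMap_coeff, hwd]
      split_ifs
      · exact map_one _
      · exact map_zero _
    rw [h1]
    simp only [h2]
    exact rb_sum_ite w k

end Fermat.Agent.S19.B
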