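import Fermat.Agent.S19.B.Small

/-!
# S19 / B : integrality over `K[t]` and the spaces `LL K t a` are stable under semilinear automorphisms fixing `t`
-/

set_option autoImplicit false

noncomputable section

namespace Fermat.Agent.S19.B

open AlgebraicCurve ModularCurve Polynomial Fermat.Agent.S24.FF Fermat.Agent.S27 Fermat.Agent.GAL
  Fermat.Agent.GAL.KL Fermat.Agent.GAL.KLC Fermat.Agent.S19.R Fermat.Agent.S19.I

theorem IsInt_semi' {K F : Type*} [Field K] [Field F] [Algebra K F] (g : SemilinearAut K F) {t z : F}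
    (ht : g • t = t) (hz : IsInt K t z) : IsInt K t (g • z) := by
  obtain ⟨P, hP, h0⟩ := hz
  let φ : K[X] →+* K[X] := mapRingHom ((SemilinearAut.baseAut g : K ≃+* K) : K →+* K)
  refine ⟨P.map φ, hP.map φ, ?_⟩
  have hcomp : (((aeval t : K[X] →ₐ[K] F) : K[X] →+* F)).comp φ
      = ((SemilinearAut.toRingAut g : F ≃+* F) : F →+* F).comp ((aeval t : K[X] →ₐ[K] F) : K[X] →+* F) := by
    ext p
    · have := semi_smul_aeval g t (C p)
      rw [ht] at this
      exact this.symm
    · have := semi_smul_aeval g t X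
      rw [ht] at this
      exact this.symm
  rw [eval₂_map, hcomp]
  have h1 := hom_eval₂ P ((aeval t : K[X] →ₐ[K] F) : K[X] →+* F)
    ((SemilinearAut.toRingAut g : F ≃+* F) : F →+* F) z
  rw [h0, map_zero] at h1
  exact h1.symm

theorem LL_semi' {K F : Type*} [Field K] [Field F] [Algebra K F] (g : SemilinearAut K F) {t z : F}
    (ht : g • t = t) {a : ℕ} (hz : z ∈ LL K t a) : g • z ∈ LL K t a := by
  have ht' : g • t⁻¹ = t⁻¹ := by rw [smul_inv₀', ht]
  refine ⟨IsInt_semi' g ht hz.1, ?_⟩
  have := IsInt_semi' g ht' hz.2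
  rwa [smul_mul', smul_pow', ht'] at this

end Fermat.Agent.S19.B
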