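import Fermat.Agent.S19.B.Defs
import Fermat.Agent.S19.B.AI
import Fermat.Agent.S37.GoodRed

/-!
# S19 / B : small facts (the arithmetic setting, rationality of `x` and `s`, `A` is completely integrally closed)
-/

set_option autoImplicit false

noncomputable section

namespace Fermat.Agent.S19.B

open AlgebraicCurve ModularCurve Polynomial Fermat.Agent.S24.FF Fermat.Agent.S27 Fermat.Agent.GAL
  Fermat.Agent.GAL.KL Fermat.Agent.GAL.KLC Fermat.Agent.S19.R Fermat.Agent.S19.I

/-- a semilinear automorphism applied to a polynomial expression. -/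
theorem semi_smul_aeval {K F : Type*} [Field K] [Field F] [Algebra K F] (g : SemilinearAut K F) (t : F)
    (p : K[X]) :
    g • aeval t p = aeval (g • t) (p.map ((SemilinearAut.baseAut g : K ≃+* K) : K →+* K)) := by
  induction p using Polynomial.induction_on' with
  | add p q hp hq => rw [map_add, smul_add, hp, hq, Polynomial.map_add, map_add]
  | monomial n a =>
    rw [Polynomial.map_monomial, aeval_monomial, aeval_monomial, smul_mul', smul_pow',
      SemilinearAut.smul_algebraMap]
    rfl

variable (M : ℕ) [NeZero M] (A : ValuationSubring Qb)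

theorem setting : Setting A (vG A M) (galM M) where
  base := fun _ _ => rfl
  vA := fun a => Fermat.Agent.S37.vG_algebraMap_le_one_iff M A a
  vval := fun z hz => (isRed A M).val z hz

theorem coe_galM_smul (σ : S19.GQ) (z : FL Qb M) :
    ((galM M σ • z : FL Qb M) : LaurentSeries Qb) = coeffMap (σ : Qb →+* Qb) (z : LaurentSeries Qb) :=
  rfl

theorem galM_smul_xF (σ : S19.GQ) : galM M σ • xF M = xF M := by
  apply Subtype.ext
  rw [coe_galM_smul]
  show coeffMap (σ : Qb →+* Qb) (coeffMap (Int.castRingHom Qb) (XZ M)) = coeffMap (Int.castRingHom Qb) (XZ M)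
  rw [coeffMap_coeffMap]
  exact coeffMap_congr (RingHom.ext_int _ _) _

theorem galM_smul_algebraMap (σ : S19.GQ) (a : Qb) :
    galM M σ • (algebraMap Qb (FL Qb M) a) = algebraMap Qb (FL Qb M) (σ a) :=
  SemilinearAut.smul_algebraMap _ a

theorem galM_smul_aeval (σ : S19.GQ) (t : FL Qb M) (p : Qb[X]) :
    galM M σ • aeval t p = aeval (galM M σ • t) (p.map (σ : Qb →+* Qb)) :=
  semi_smul_aeval (galM M σ) t p

theorem galM_smul_aeval_int (σ : S19.GQ) (m : ℤ[X]) :
    galM M σ • aeval (xF M) (m.map (Int.castRingHom Qb)) = aeval (xF M) (m.map (Int.castRingHom Qb)) := by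
  rw [galM_smul_aeval, galM_smul_xF, Polynomial.map_map]
  congr 2
  exact RingHom.ext_int _ _

theorem galM_smul_sM (m : ℤ[X]) (σ : S19.GQ) : galM M σ • sM M m = sM M m := by
  unfold sM
  rw [smul_inv₀', galM_smul_aeval_int]

/-- a valuation ring of `ℚ̄` over a prime is completely integrally closed (rank one). -/
theorem cic_A {ℓ : ℕ} (hℓ : ℓ.Prime) (hA : A.LiesOverPrime ℓ) : CIC A.toSubring := by
  intro c a hc h
  by_contra ha
  have ha' : 1 < A.valuation a := by
    rw [← not_le, ValuationSubring.valuation_le_one_iff]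
    exact ha
  have ha0 : a ≠ 0 := by
    rintro rfl
    exact ha A.zero_mem
  have hinv : A.valuation a⁻¹ < 1 := by
    rw [map_inv₀]
    exact inv_lt_one_of_one_lt₀ ha'
  have hℓv : A.valuation ((ℓ : ℕ) : Qb) < 1 := hA
  have : Algebra.IsAlgebraic ℚ Qb := AlgebraicClosure.isAlgebraic ℚ
  obtain ⟨m, hm⟩ := ValArch.exists_pow_lt (v := A.valuation) hℓ hℓv hinv hc
  have h1 : A.valuation (c * a ^ m) ≤ 1 := (A.valuation_le_one_iff _).mpr (h m)
  rw [map_mul, map_pow] at h1
  rw [map_inv₀, inv_pow] at hm
  have hpos : 0 < A.valuation a ^ m := pow_pos (A.valuation.pos_iff.mpr ha0) _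
  have h2 : 1 < A.valuation c * A.valuation a ^ m := by
    have := mul_lt_mul_of_pos_right hm hpos
    rwa [inv_mul_cancel₀ hpos.ne'] at this
  exact absurd h1 (not_le.mpr h2)

end Fermat.Agent.S19.B
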